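import Mathlib
import Fermat.Prelude.Def_AlgebraicCurve_DivisorClassGroup
import Fermat.Agent.MUL.Orig.S24.Residue
import Fermat.Agent.MUL.Orig.F3.I2.Descent.Theta

set_option autoImplicit false

/-!
# Constant field extensions, part 0: a criterion for a valuation subring to be a place

`B` a valuation subring of a field `F`, `v = B.valuation`.  If there is `π` with `0 < v π < 1`
such that every nonzero `x` has `v x = (v π) ^ m` for some `m : ℤ`, then `B` is a principal
ideal ring (a discrete valuation ring), `π` is a uniformizer and `ord x = m`.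
-/

noncomputable section

open AlgebraicCurve

namespace Fermat.Agent.ConstExt

variable {F : Type*} [Field F]

theorem zpow_lt_one_of_pos {Γ : Type*} [LinearOrderedCommGroupWithZero Γ] {a : Γ}
    (_ha0 : a ≠ 0) (ha1 : a < 1) {m : ℤ} (hm : 0 < m) : a ^ m < 1 := by
  obtain ⟨n, rfl⟩ := Int.eq_ofNat_of_zero_le hm.le
  rw [zpow_natCast]
  have hn : n ≠ 0 := by
    rintro rfl
    simp at hm
  exact pow_lt_one₀ zero_le ha1 hn

theorem one_lt_zpow_of_neg {Γ : Type*} [LinearOrderedCommGroupWithZero Γ] {a : Γ}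
    (ha0 : a ≠ 0) (ha1 : a < 1) {m : ℤ} (hm : m < 0) : 1 < a ^ m := by
  have h1 : a ^ (-m) < 1 := zpow_lt_one_of_pos ha0 ha1 (by omega)
  rw [zpow_neg] at h1
  have h2 : a ^ m ≠ 0 := zpow_ne_zero m ha0
  by_contra hcon
  rw [not_lt] at hcon
  have h3 : 1 ≤ (a ^ m)⁻¹ := (one_le_inv₀ (zero_lt_iff.mpr h2)).mpr hcon
  exact absurd h1 (not_lt.mpr h3)

theorem zpow_le_one_iff_nonneg {Γ : Type*} [LinearOrderedCommGroupWithZero Γ] {a : Γ}
    (ha0 : a ≠ 0) (ha1 : a < 1) {m : ℤ} : a ^ m ≤ 1 ↔ 0 ≤ m := by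
  constructor
  · intro h
    by_contra hcon
    rw [not_le] at hcon
    exact absurd h (not_le.mpr (one_lt_zpow_of_neg ha0 ha1 hcon))
  · intro h
    rcases h.eq_or_lt with h0 | h0
    · rw [← h0, zpow_zero]
    · exact (zpow_lt_one_of_pos ha0 ha1 h0).le

theorem zpow_eq_one_iff_zero {Γ : Type*} [LinearOrderedCommGroupWithZero Γ] {a : Γ}
    (ha0 : a ≠ 0) (ha1 : a < 1) {m : ℤ} : a ^ m = 1 ↔ m = 0 := by
  constructor
  · intro h
    rcases lt_trichotomy m 0 with hm | hm | hm
    · exact absurd h (ne_of_gt (one_lt_zpow_of_neg ha0 ha1 hm))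
    · exact hm
    · exact absurd h (ne_of_lt (zpow_lt_one_of_pos ha0 ha1 hm))
  · rintro rfl
    exact zpow_zero a

theorem zpow_inj_of_lt_one {Γ : Type*} [LinearOrderedCommGroupWithZero Γ] {a : Γ}
    (ha0 : a ≠ 0) (ha1 : a < 1) {m n : ℤ} (h : a ^ m = a ^ n) : m = n := by
  have h1 : a ^ (m - n) = 1 := by
    rw [zpow_sub₀ ha0, h, div_self (zpow_ne_zero n ha0)]
  have := (zpow_eq_one_iff_zero ha0 ha1).mp h1
  omega

/-- the hypothesis of the criterion: `π` is a "uniformizer" of the valuation subring `B`. -/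
structure IsUnif (B : ValuationSubring F) (π : F) : Prop where
  ne_zero : π ≠ 0
  lt_one : B.valuation π < 1
  exists_zpow : ∀ x : F, x ≠ 0 → ∃ m : ℤ, B.valuation x = B.valuation π ^ m

namespace IsUnif

variable {B : ValuationSubring F} {π : F}

theorem val_ne_zero (h : IsUnif B π) : B.valuation π ≠ 0 :=
  (Valuation.ne_zero_iff _).mpr h.ne_zero

theorem mem (h : IsUnif B π) : π ∈ B :=
  (B.valuation_le_one_iff π).mp h.lt_one.le

theorem ne_top (h : IsUnif B π) : B ≠ ⊤ := by
  intro htop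
  have h1 : π⁻¹ ∈ B := by rw [htop]; exact ValuationSubring.mem_top _
  have h2 : B.valuation π⁻¹ ≤ 1 := (B.valuation_le_one_iff _).mpr h1
  rw [map_inv₀] at h2
  have h3 : 1 < (B.valuation π)⁻¹ := (one_lt_inv₀ (zero_lt_iff.mpr h.val_ne_zero)).mpr h.lt_one
  exact absurd h2 (not_le.mpr h3)

theorem isUnit_of_val_eq_one (x : B) (hx : B.valuation (x : F) = 1) : IsUnit x :=
  (B.valuation_eq_one_iff x).mpr hx

theorem irreducible (h : IsUnif B π) : Irreducible (⟨π, h.mem⟩ : B) := by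
  have hv0 := h.val_ne_zero
  refine ⟨?_, ?_⟩
  · -- not a unit
    intro hu
    have := (B.valuation_eq_one_iff ⟨π, h.mem⟩).mp hu
    exact absurd this (ne_of_lt h.lt_one)
  · -- irreducible
    intro a b hab
    have hab' : π = (a : F) * (b : F) := congrArg Subtype.val hab
    have ha0 : (a : F) ≠ 0 := by
      intro h0
      rw [h0, zero_mul] at hab'
      exact h.ne_zero hab'
    have hb0 : (b : F) ≠ 0 := by
      intro h0
      rw [h0, mul_zero] at hab'
      exact h.ne_zero hab'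
    obtain ⟨i, hi⟩ := h.exists_zpow _ ha0
    obtain ⟨j, hj⟩ := h.exists_zpow _ hb0
    have hi0 : 0 ≤ i := by
      rw [← zpow_le_one_iff_nonneg hv0 h.lt_one, ← hi]
      exact (B.valuation_le_one_iff _).mpr a.2
    have hj0 : 0 ≤ j := by
      rw [← zpow_le_one_iff_nonneg hv0 h.lt_one, ← hj]
      exact (B.valuation_le_one_iff _).mpr b.2
    have hsum : B.valuation π ^ (1 : ℤ) = B.valuation π ^ (i + j) := by
      rw [zpow_add₀ hv0, ← hi, ← hj, ← map_mul, ← hab', zpow_one]
    have hij : 1 = i + j := zpow_inj_of_lt_one hv0 h.lt_one hsum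
    rcases (show i = 0 ∨ j = 0 by omega) with h0 | h0
    · left
      apply isUnit_of_val_eq_one
      rw [hi, h0, zpow_zero]
    · right
      apply isUnit_of_val_eq_one
      rw [hj, h0, zpow_zero]

theorem hasFactorization (h : IsUnif B π) :
    IsDiscreteValuationRing.HasUnitMulPowIrreducibleFactorization B := by
  have hv0 := h.val_ne_zero
  refine ⟨⟨π, h.mem⟩, h.irreducible, ?_⟩
  intro x hx
  have hx0 : (x : F) ≠ 0 := fun h0 => hx (Subtype.ext h0)
  obtain ⟨m, hm⟩ := h.exists_zpow _ hx0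
  have hm0 : 0 ≤ m := by
    rw [← zpow_le_one_iff_nonneg hv0 h.lt_one, ← hm]
    exact (B.valuation_le_one_iff _).mpr x.2
  obtain ⟨n, rfl⟩ := Int.eq_ofNat_of_zero_le hm0
  refine ⟨n, ?_⟩
  have hu : B.valuation ((x : F) * (π ^ n)⁻¹) = 1 := by
    rw [map_mul, map_inv₀, map_pow, hm, zpow_natCast]
    exact mul_inv_cancel₀ (pow_ne_zero n hv0)
  have humem : (x : F) * (π ^ n)⁻¹ ∈ B := (B.valuation_le_one_iff _).mp hu.le
  have hunit : IsUnit (⟨(x : F) * (π ^ n)⁻¹, humem⟩ : B) := isUnit_of_val_eq_one _ hu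
  refine ⟨hunit.unit, ?_⟩
  apply Subtype.ext
  show (π ^ n) * ((x : F) * (π ^ n)⁻¹) = x
  have hπn : π ^ n ≠ 0 := pow_ne_zero n h.ne_zero
  field_simp

theorem isPrincipalIdealRing (h : IsUnif B π) : IsPrincipalIdealRing B :=
  haveI := IsDiscreteValuationRing.ofHasUnitMulPowIrreducibleFactorization h.hasFactorization
  inferInstance

variable {C : Type*} [Field C] [Algebra C F]

/-- the place defined by a valuation subring with a uniformizer. -/
def place (h : IsUnif B π) (hC : ∀ c : C, algebraMap C F c ∈ B) : Place C F where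
  toValuationSubring := B
  algebraMap_mem' := hC
  ne_top' := h.ne_top
  isPrincipalIdealRing' := h.isPrincipalIdealRing

@[simp]
theorem place_toValuationSubring (h : IsUnif B π) (hC : ∀ c : C, algebraMap C F c ∈ B) :
    (h.place hC).toValuationSubring = B := rfl

theorem ord_place_unif (h : IsUnif B π) (hC : ∀ c : C, algebraMap C F c ∈ B) :
    (h.place hC).ord π = 1 :=
  (h.place hC).ord_coe_irreducible (π := ⟨π, h.mem⟩) h.irreducible

theorem ord_place (h : IsUnif B π) (hC : ∀ c : C, algebraMap C F c ∈ B) {x : F} (hx : x ≠ 0)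
    {m : ℤ} (hm : B.valuation x = B.valuation π ^ m) : (h.place hC).ord x = m := by
  have hv0 := h.val_ne_zero
  have hπm : π ^ m ≠ 0 := zpow_ne_zero m h.ne_zero
  have hu : B.valuation (x * (π ^ m)⁻¹) = 1 := by
    rw [map_mul, map_inv₀, map_zpow₀, hm]
    exact mul_inv_cancel₀ (zpow_ne_zero m hv0)
  have humem : x * (π ^ m)⁻¹ ∈ B := (B.valuation_le_one_iff _).mp hu.le
  have hunit : IsUnit (⟨x * (π ^ m)⁻¹, humem⟩ : B) := isUnit_of_val_eq_one _ hu
  have h0 : (h.place hC).ord (x * (π ^ m)⁻¹) = 0 :=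
    Fermat.Agent.S24Res.ord_eq_zero_of_isUnit (h.place hC)
      (a := (⟨x * (π ^ m)⁻¹, humem⟩ : (h.place hC).toValuationSubring)) hunit
  have hx' : x = (x * (π ^ m)⁻¹) * π ^ m := by
    field_simp
  have hne : x * (π ^ m)⁻¹ ≠ 0 := mul_ne_zero hx (inv_ne_zero hπm)
  rw [hx', (h.place hC).ord_mul hne hπm, h0, (h.place hC).ord_zpow, h.ord_place_unif hC]
  ring

end IsUnif

end Fermat.Agent.ConstExt
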