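import Mathlib
import Fermat.Prelude.Def_AlgebraicCurve_DivisorClassGroup
import Fermat.Agent.MUL.Orig.S24.Residue
import Fermat.Agent.MUL.Orig.Lib.ConstExt.Dvr
import Fermat.Agent.MUL.Lib.BadRed.Mod.SSCount23

set_option autoImplicit false

/-!
# Constant field extensions of function fields, part 1: the algebra of `C · φ(FK)`

Setting: `K → C` fields, `FK` a field over `K`, `FC` a field over `C`, `φ : FK →+* FC` a ring
homomorphism compatible with the constants, such that
* (`ld`)  `C` and `φ(FK)` are linearly disjoint over `K` inside `FC`,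
* (`gen`) `FC` is generated, as a field, by `C` and `φ(FK)`.

We fix a `K`-basis `b` of `C` and study `Φ g = ∑ j, b j * φ (g j)` for `g : I →₀ FK`.
-/

noncomputable section

open AlgebraicCurve

namespace Fermat.Agent.ConstExt

universe uK uC uFK uFC

variable {K : Type uK} {C : Type uC} {FK : Type uFK} {FC : Type uFC}
  [Field K] [Field C] [Field FK] [Field FC] [Algebra K C] [Algebra K FK] [Algebra C FC]

/-- `FC` is the constant field extension of `FK` along `K → C`, via `φ`. -/
structure IsConstExt (φ : FK →+* FC) : Prop where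
  comm : ∀ a : K, φ (algebraMap K FK a) = algebraMap C FC (algebraMap K C a)
  ld : ∀ (I : Type uC) (b : I → C), LinearIndependent K b → ∀ g : I →₀ FK,
      (g.sum fun j f => algebraMap C FC (b j) * φ f) = 0 → g = 0
  gen : IntermediateField.adjoin C (Set.range φ) = ⊤

variable (K C) in
/-- index type of the fixed `K`-basis of `C`. -/
abbrev Idx : Type uC := ↥(Module.Basis.ofVectorSpaceIndex K C)

variable (K C) in
/-- the fixed `K`-basis of `C`. -/
def bas : Module.Basis (Idx K C) K C := Module.Basis.ofVectorSpace K C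

variable (K C) in
/-- `Φ g = ∑ j, b j * φ (g j)`. -/
def Phi (φ : FK →+* FC) : (Idx K C →₀ FK) →+ FC :=
  Finsupp.liftAddHom fun j =>
    (AddMonoidHom.mulLeft (algebraMap C FC (bas K C j))).comp φ.toAddMonoidHom

variable (φ : FK →+* FC)

theorem Phi_apply (g : Idx K C →₀ FK) :
    Phi K C φ g = g.sum fun j f => algebraMap C FC (bas K C j) * φ f := rfl

@[simp]
theorem Phi_single (j : Idx K C) (f : FK) :
    Phi K C φ (Finsupp.single j f) = algebraMap C FC (bas K C j) * φ f := by
  rw [Phi_apply, Finsupp.sum_single_index]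
  rw [map_zero, mul_zero]

theorem Phi_smul (f : FK) (g : Idx K C →₀ FK) : Phi K C φ (f • g) = φ f * Phi K C φ g := by
  induction g using Finsupp.induction_linear with
  | zero => simp
  | add g h hg hh => rw [smul_add, map_add, map_add, hg, hh, mul_add]
  | single j x =>
      rw [Finsupp.smul_single, Phi_single, Phi_single, smul_eq_mul, map_mul]
      ring

/-- the coordinates of `c * φ f`. -/
def E (c : C) (f : FK) : Idx K C →₀ FK :=
  Finsupp.mapRange (fun a : K => a • f) (zero_smul K f) ((bas K C).repr c)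

theorem E_apply (c : C) (f : FK) (j : Idx K C) : E c f j = ((bas K C).repr c j) • f := by
  rw [E, Finsupp.mapRange_apply]

variable {φ}

theorem IsConstExt.map_smul (hφ : IsConstExt (K := K) (C := C) φ) (a : K) (f : FK) :
    φ (a • f) = algebraMap C FC (algebraMap K C a) * φ f := by
  rw [Algebra.smul_def, map_mul, hφ.comm]

theorem Phi_E (hφ : IsConstExt (K := K) (C := C) φ) (c : C) (f : FK) :
    Phi K C φ (E c f) = algebraMap C FC c * φ f := by
  rw [Phi_apply, E, Finsupp.sum_mapRange_index (fun j => by rw [map_zero, mul_zero])]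
  have h1 : ∀ (j : Idx K C) (a : K),
      algebraMap C FC (bas K C j) * φ (a • f) = algebraMap C FC (a • bas K C j) * φ f := by
    intro j a
    rw [hφ.map_smul, Algebra.smul_def a (bas K C j), map_mul]
    ring
  simp only [h1]
  rw [← Finsupp.sum_mul, ← map_finsuppSum]
  congr 2
  exact (bas K C).linearCombination_repr c

theorem Phi_injective (hφ : IsConstExt (K := K) (C := C) φ) :
    Function.Injective (Phi K C φ) := by
  rw [injective_iff_map_eq_zero]
  intro g hg
  exact hφ.ld (Idx K C) (bas K C) (bas K C).linearIndependent g hg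

/-- coordinates of a product. -/
def mulF (g h : Idx K C →₀ FK) : Idx K C →₀ FK :=
  g.sum fun j f => h.sum fun k f' => E (bas K C j * bas K C k) (f * f')

theorem Phi_mulF (hφ : IsConstExt (K := K) (C := C) φ) (g h : Idx K C →₀ FK) :
    Phi K C φ (mulF g h) = Phi K C φ g * Phi K C φ h := by
  rw [mulF, map_finsuppSum]
  simp only [map_finsuppSum, Phi_E hφ]
  rw [Phi_apply, Phi_apply, Finsupp.sum_mul]
  refine Finsupp.sum_congr fun j _ => ?_
  rw [Finsupp.mul_sum]
  refine Finsupp.sum_congr fun k _ => ?_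
  rw [map_mul, map_mul]
  ring

/-- finitely supported families with entries in a subring `O`. -/
def EntriesIn (O : Subring FK) : AddSubgroup (Idx K C →₀ FK) where
  carrier := {g | ∀ j, g j ∈ O}
  zero_mem' := fun j => by simp
  add_mem' := fun {g h} hg hh j => by
    rw [Finsupp.add_apply]
    exact O.add_mem (hg j) (hh j)
  neg_mem' := fun {g} hg j => by
    rw [Finsupp.neg_apply]
    exact O.neg_mem (hg j)

theorem mem_entriesIn {O : Subring FK} {g : Idx K C →₀ FK} :
    g ∈ EntriesIn (K := K) (C := C) O ↔ ∀ j, g j ∈ O := Iff.rfl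

theorem E_mem_entriesIn {O : Subring FK} (hO : ∀ a : K, algebraMap K FK a ∈ O) (c : C) {f : FK}
    (hf : f ∈ O) : E c f ∈ EntriesIn (K := K) (C := C) O := by
  intro j
  rw [E_apply, Algebra.smul_def]
  exact O.mul_mem (hO _) hf

theorem mulF_mem_entriesIn {O : Subring FK} (hO : ∀ a : K, algebraMap K FK a ∈ O)
    {g h : Idx K C →₀ FK} (hg : g ∈ EntriesIn (K := K) (C := C) O)
    (hh : h ∈ EntriesIn (K := K) (C := C) O) : mulF g h ∈ EntriesIn (K := K) (C := C) O := by
  rw [mulF, Finsupp.sum]
  refine AddSubgroup.sum_mem _ fun j _ => ?_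
  rw [Finsupp.sum]
  refine AddSubgroup.sum_mem _ fun k _ => ?_
  exact E_mem_entriesIn hO _ (O.mul_mem (hg j) (hh k))

/-- the subring `C[φ(O)]` of `FC`. -/
def ringOf (hφ : IsConstExt (K := K) (C := C) φ) (O : Subring FK)
    (hO : ∀ a : K, algebraMap K FK a ∈ O) : Subring FC where
  carrier := {x | ∃ g ∈ EntriesIn (K := K) (C := C) O, Phi K C φ g = x}
  zero_mem' := ⟨0, zero_mem _, map_zero _⟩
  one_mem' := ⟨E 1 1, E_mem_entriesIn hO 1 O.one_mem, by rw [Phi_E hφ, map_one, map_one, mul_one]⟩
  add_mem' := by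
    rintro x y ⟨g, hg, rfl⟩ ⟨h, hh, rfl⟩
    exact ⟨g + h, add_mem hg hh, map_add _ _ _⟩
  neg_mem' := by
    rintro x ⟨g, hg, rfl⟩
    exact ⟨-g, neg_mem hg, map_neg _ _⟩
  mul_mem' := by
    rintro x y ⟨g, hg, rfl⟩ ⟨h, hh, rfl⟩
    exact ⟨mulF g h, mulF_mem_entriesIn hO hg hh, Phi_mulF hφ g h⟩

theorem mem_ringOf (hφ : IsConstExt (K := K) (C := C) φ) {O : Subring FK}
    {hO : ∀ a : K, algebraMap K FK a ∈ O} {x : FC} :
    x ∈ ringOf hφ O hO ↔ ∃ g ∈ EntriesIn (K := K) (C := C) O, Phi K C φ g = x := Iff.rfl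

theorem algebraMap_mem_ringOf (hφ : IsConstExt (K := K) (C := C) φ) {O : Subring FK}
    {hO : ∀ a : K, algebraMap K FK a ∈ O} (c : C) : algebraMap C FC c ∈ ringOf hφ O hO :=
  ⟨E c 1, E_mem_entriesIn hO c O.one_mem, by rw [Phi_E hφ, map_one, mul_one]⟩

theorem map_mem_ringOf (hφ : IsConstExt (K := K) (C := C) φ) {O : Subring FK}
    {hO : ∀ a : K, algebraMap K FK a ∈ O} {f : FK} (hf : f ∈ O) : φ f ∈ ringOf hφ O hO :=
  ⟨E 1 f, E_mem_entriesIn hO 1 hf, by rw [Phi_E hφ, map_one, one_mul]⟩

/-- every element of `FC` is a quotient of two elements of `C[φ(FK)]`. -/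
theorem exists_frac (hφ : IsConstExt (K := K) (C := C) φ) (x : FC) :
    ∃ g h : Idx K C →₀ FK, Phi K C φ h ≠ 0 ∧ x * Phi K C φ h = Phi K C φ g := by
  have hx : x ∈ IntermediateField.adjoin C (Set.range φ) := by
    rw [hφ.gen]
    exact IntermediateField.mem_top
  induction hx using IntermediateField.adjoin_induction with
  | mem y hy =>
      obtain ⟨f, rfl⟩ := hy
      refine ⟨E 1 f, E 1 1, ?_, ?_⟩
      · rw [Phi_E hφ, map_one, map_one, mul_one]
        exact one_ne_zero
      · rw [Phi_E hφ, Phi_E hφ, map_one, map_one, mul_one, mul_one, one_mul]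
  | algebraMap c =>
      refine ⟨E c 1, E 1 1, ?_, ?_⟩
      · rw [Phi_E hφ, map_one, map_one, mul_one]
        exact one_ne_zero
      · rw [Phi_E hφ, Phi_E hφ, map_one, map_one, mul_one, mul_one]
  | add x y _ _ hx hy =>
      obtain ⟨g, h, hh, hgh⟩ := hx
      obtain ⟨g', h', hh', hgh'⟩ := hy
      refine ⟨mulF g h' + mulF g' h, mulF h h', ?_, ?_⟩
      · rw [Phi_mulF hφ]
        exact mul_ne_zero hh hh'
      · rw [map_add, Phi_mulF hφ, Phi_mulF hφ, Phi_mulF hφ, ← hgh, ← hgh']
        ring
  | inv x _ hx =>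
      obtain ⟨g, h, hh, hgh⟩ := hx
      by_cases hg : Phi K C φ g = 0
      · have hx0 : x = 0 := by
          rw [hg] at hgh
          exact (mul_eq_zero.mp hgh).resolve_right hh
        refine ⟨0, h, hh, ?_⟩
        rw [hx0, inv_zero, zero_mul, map_zero]
      · refine ⟨h, g, hg, ?_⟩
        have hx0 : x ≠ 0 := by
          rintro rfl
          rw [zero_mul] at hgh
          exact hg hgh.symm
        rw [← hgh]
        field_simp
  | mul x y _ _ hx hy =>
      obtain ⟨g, h, hh, hgh⟩ := hx
      obtain ⟨g', h', hh', hgh'⟩ := hy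
      refine ⟨mulF g g', mulF h h', ?_, ?_⟩
      · rw [Phi_mulF hφ]
        exact mul_ne_zero hh hh'
      · rw [Phi_mulF hφ, Phi_mulF hφ, ← hgh, ← hgh']
        ring

end Fermat.Agent.ConstExt
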